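import Mathlib

set_option autoImplicit false

/-!
# Weighted Lambert series

`∑_{d, c ≥ 1} g(d) c^k r^(dc) = ∑_{e ≥ 1} (∑_{d c = e} g(d) c^k) r^e` for a bounded weight `g`.
-/

namespace Fermat.Agent.S48.TwistC

open Filter Complex Nat Topology

noncomputable section

/-- The weighted divisor sum `∑_{d c = n} g(d) c^k`. -/
def dsum (g : ℕ → ℂ) (k n : ℕ) : ℂ :=
  ∑ x ∈ n.divisorsAntidiagonal, g x.1 * (x.2 : ℂ) ^ k

@[simp] lemma dsum_zero (g : ℕ → ℂ) (k : ℕ) : dsum g k 0 = 0 := by simp [dsum]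

@[simp] lemma dsum_one (g : ℕ → ℂ) (k : ℕ) : dsum g k 1 = g 1 := by simp [dsum]

lemma norm_dsum_le {g : ℕ → ℂ} (hg : ∀ d, ‖g d‖ ≤ 1) (k n : ℕ) :
    ‖dsum g k n‖ ≤ (n : ℝ) ^ (k + 1) := by
  unfold dsum
  refine (norm_sum_le _ _).trans ?_
  have h1 : ∀ x ∈ n.divisorsAntidiagonal, ‖g x.1 * (x.2 : ℂ) ^ k‖ ≤ (n : ℝ) ^ k := by
    intro x hx
    rw [norm_mul, norm_pow, Complex.norm_natCast]
    have hx' := Nat.mem_divisorsAntidiagonal.mp hx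
    have hx2 : x.2 ≤ n := Nat.le_of_dvd (Nat.pos_of_ne_zero hx'.2) (Dvd.intro_left _ hx'.1)
    have hx3 : (x.2 : ℝ) ^ k ≤ (n : ℝ) ^ k :=
      pow_le_pow_left₀ (Nat.cast_nonneg _) (by exact_mod_cast hx2) k
    calc ‖g x.1‖ * (x.2 : ℝ) ^ k ≤ 1 * (n : ℝ) ^ k :=
          mul_le_mul (hg _) hx3 (by positivity) zero_le_one
      _ = (n : ℝ) ^ k := one_mul _
  refine (Finset.sum_le_sum h1).trans ?_
  rw [Nat.sum_divisorsAntidiagonal (f := fun _ _ => (n : ℝ) ^ k), Finset.sum_const, nsmul_eq_mul,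
    pow_succ, mul_comm]
  gcongr
  exact_mod_cast Nat.card_divisors_le_self n

lemma summable_dsum_mul_pow {g : ℕ → ℂ} (hg : ∀ d, ‖g d‖ ≤ 1) (k : ℕ) {r : ℂ} (hr : ‖r‖ < 1) :
    Summable fun n : ℕ => dsum g k n * r ^ n := by
  refine Summable.of_norm_bounded
    (summable_norm_pow_mul_geometric_of_norm_lt_one (k + 1) hr) fun n => ?_
  rw [norm_mul, norm_mul, norm_pow, norm_pow, Complex.norm_natCast]
  gcongr
  exact norm_dsum_le hg k n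

lemma summable_prod_weighted {g : ℕ → ℂ} (hg : ∀ d, ‖g d‖ ≤ 1) (k : ℕ) {r : ℂ} (hr : ‖r‖ < 1) :
    Summable fun c : ℕ+ × ℕ+ => g c.1 * ((c.2 : ℂ) ^ k * r ^ (c.1 * c.2 : ℕ)) := by
  refine Summable.of_norm_bounded ((summable_prod_mul_pow k hr).norm) fun c => ?_
  rw [norm_mul]
  exact mul_le_of_le_one_left (norm_nonneg _) (hg _)

theorem tsum_prod_weighted {g : ℕ → ℂ} (hg : ∀ d, ‖g d‖ ≤ 1) (k : ℕ) {r : ℂ} (hr : ‖r‖ < 1) :
    ∑' d : ℕ+, ∑' c : ℕ+, g d * ((c : ℂ) ^ k * r ^ (d * c : ℕ)) =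
      ∑' e : ℕ+, dsum g k e * r ^ (e : ℕ) := by
  have hs := summable_prod_weighted hg k hr
  have hs' : Summable fun c : (n : ℕ+) × (n : ℕ).divisorsAntidiagonal =>
      g (sigmaAntidiagonalEquivProd c).1 * (((sigmaAntidiagonalEquivProd c).2 : ℂ) ^ k *
        r ^ ((sigmaAntidiagonalEquivProd c).1 * (sigmaAntidiagonalEquivProd c).2 : ℕ)) :=
    sigmaAntidiagonalEquivProd.summable_iff.mpr hs
  rw [← hs.tsum_prod, ← sigmaAntidiagonalEquivProd.tsum_eq, hs'.tsum_sigma]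
  refine tsum_congr fun n => ?_
  rw [tsum_fintype, dsum, Finset.sum_mul]
  rw [← Finset.sum_attach (n : ℕ).divisorsAntidiagonal
    (fun x => g x.1 * (x.2 : ℂ) ^ k * r ^ (n : ℕ))]
  refine Finset.sum_congr rfl fun x _ => ?_
  have hx := (Nat.mem_divisorsAntidiagonal.mp x.2).1
  simp only [sigmaAntidiagonalEquivProd, divisorsAntidiagonalFactors, Equiv.coe_fn_mk,
    PNat.mk_coe]
  rw [hx]
  ring

end

end Fermat.Agent.S48.TwistC
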