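import Mathlib

set_option autoImplicit false

/-!
# Weighted Eisenstein sums

For a bounded weight `w : (Fin 2 → ℤ) → ℂ` and `k ≥ 3` the sum
`∑' v, w v * (v 0 * z + v 1) ^ (-k)` is holomorphic on `ℍ`, bounded at `i∞`, and transforms
under `SL(2, ℤ)` by permuting the weight.
-/

namespace Fermat.Agent.S48.TwistC

open UpperHalfPlane ModularForm EisensteinSeries Matrix Filter Complex Set
open scoped MatrixGroups Manifold Topology

noncomputable section

/-- The weighted Eisenstein sum `∑' v, w v * (v 0 * z + v 1) ^ (-k)`. -/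
def wEis (w : (Fin 2 → ℤ) → ℂ) (k : ℤ) (z : ℍ) : ℂ :=
  ∑' v : Fin 2 → ℤ, w v * eisSummand k v z

variable {w : (Fin 2 → ℤ) → ℂ} {k : ℤ}

lemma summable_norm_wEis (hw : ∀ v, ‖w v‖ ≤ 1) (hk : 3 ≤ k) (z : ℍ) :
    Summable fun v : Fin 2 → ℤ => ‖w v * eisSummand k v z‖ := by
  refine (summable_norm_eisSummand hk z).of_nonneg_of_le (fun _ => norm_nonneg _) fun v => ?_
  rw [norm_mul]
  exact mul_le_of_le_one_left (norm_nonneg _) (hw v)

lemma summable_wEis (hw : ∀ v, ‖w v‖ ≤ 1) (hk : 3 ≤ k) (z : ℍ) :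
    Summable fun v : Fin 2 → ℤ => w v * eisSummand k v z :=
  (summable_norm_wEis hw hk z).of_norm

/-- Right multiplication by `γ ∈ SL(2, ℤ)` as a permutation of `ℤ²`. -/
def vecMulEquiv (γ : SL(2, ℤ)) : (Fin 2 → ℤ) ≃ (Fin 2 → ℤ) where
  toFun v := v ᵥ* (γ : Matrix (Fin 2) (Fin 2) ℤ)
  invFun v := v ᵥ* ((γ⁻¹ : SL(2, ℤ)) : Matrix (Fin 2) (Fin 2) ℤ)
  left_inv v := by
    show (v ᵥ* (γ : Matrix (Fin 2) (Fin 2) ℤ)) ᵥ*
      ((γ⁻¹ : SL(2, ℤ)) : Matrix (Fin 2) (Fin 2) ℤ) = v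
    rw [vecMul_vecMul, ← Matrix.SpecialLinearGroup.coe_mul, mul_inv_cancel,
      Matrix.SpecialLinearGroup.coe_one, vecMul_one]
  right_inv v := by
    show (v ᵥ* ((γ⁻¹ : SL(2, ℤ)) : Matrix (Fin 2) (Fin 2) ℤ)) ᵥ*
      (γ : Matrix (Fin 2) (Fin 2) ℤ) = v
    rw [vecMul_vecMul, ← Matrix.SpecialLinearGroup.coe_mul, inv_mul_cancel,
      Matrix.SpecialLinearGroup.coe_one, vecMul_one]

@[simp] lemma vecMulEquiv_apply (γ : SL(2, ℤ)) (v : Fin 2 → ℤ) :
    vecMulEquiv γ v = v ᵥ* (γ : Matrix (Fin 2) (Fin 2) ℤ) := rfl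

@[simp] lemma vecMulEquiv_symm_apply (γ : SL(2, ℤ)) (v : Fin 2 → ℤ) :
    (vecMulEquiv γ).symm v = v ᵥ* ((γ⁻¹ : SL(2, ℤ)) : Matrix (Fin 2) (Fin 2) ℤ) := rfl

/-- The slash action permutes the weight. -/
lemma wEis_slash (w : (Fin 2 → ℤ) → ℂ) (k : ℤ) (γ : SL(2, ℤ)) :
    (wEis w k) ∣[k] γ =
      wEis (fun v => w (v ᵥ* ((γ⁻¹ : SL(2, ℤ)) : Matrix (Fin 2) (Fin 2) ℤ))) k := by
  ext z
  have h1 : ∀ v : Fin 2 → ℤ, w v * eisSummand k v (γ • z) =
      denom γ z ^ k * (w v * eisSummand k (v ᵥ* (γ : Matrix (Fin 2) (Fin 2) ℤ)) z) := by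
    intro v
    rw [eisSummand_SL2_apply]
    ring
  have h2 : ∑' v : Fin 2 → ℤ, w v * eisSummand k (v ᵥ* (γ : Matrix (Fin 2) (Fin 2) ℤ)) z =
      ∑' u : Fin 2 → ℤ,
        w (u ᵥ* ((γ⁻¹ : SL(2, ℤ)) : Matrix (Fin 2) (Fin 2) ℤ)) * eisSummand k u z := by
    rw [← (vecMulEquiv γ).tsum_eq (fun u : Fin 2 → ℤ =>
      w (u ᵥ* ((γ⁻¹ : SL(2, ℤ)) : Matrix (Fin 2) (Fin 2) ℤ)) * eisSummand k u z)]
    refine tsum_congr fun v => ?_
    have h3 : (vecMulEquiv γ v) ᵥ* ((γ⁻¹ : SL(2, ℤ)) : Matrix (Fin 2) (Fin 2) ℤ) = v :=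
      (vecMulEquiv γ).left_inv v
    show _ = w ((vecMulEquiv γ v) ᵥ* ((γ⁻¹ : SL(2, ℤ)) : Matrix (Fin 2) (Fin 2) ℤ)) *
      eisSummand k (vecMulEquiv γ v) z
    rw [h3]
    rfl
  have hd : denom γ z ^ k ≠ 0 := zpow_ne_zero k (denom_ne_zero γ z)
  rw [SL_slash_apply, wEis, wEis, tsum_congr h1, tsum_mul_left, h2, _root_.zpow_neg]
  field_simp

/-- Locally uniform convergence of the weighted Eisenstein sum. -/
theorem wEis_tendstoLocallyUniformly (hw : ∀ v, ‖w v‖ ≤ 1) (hk : 3 ≤ k) :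
    TendstoLocallyUniformly (fun (s : Finset (Fin 2 → ℤ)) ↦ (∑ x ∈ s, w x * eisSummand k x ·))
      (wEis w k ·) Filter.atTop := by
  have hk' : (2 : ℝ) < k := by norm_cast
  have p_sum : Summable fun x : Fin 2 → ℤ ↦ ‖x‖ ^ (-k) :=
    mod_cast (summable_one_div_norm_rpow hk')
  simp only [tendstoLocallyUniformly_iff_forall_isCompact, wEis]
  intro K hK
  obtain ⟨A, B, hB, HABK⟩ := subset_verticalStrip_of_isCompact hK
  refine (tendstoUniformlyOn_tsum (hu := p_sum.mul_left <| r ⟨⟨A, B⟩, hB⟩ ^ (-k : ℝ))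
    (fun p z hz ↦ ?_)).mono HABK
  rw [norm_mul]
  refine (mul_le_of_le_one_left (norm_nonneg _) (hw p)).trans ?_
  simpa only [eisSummand, one_div, ← _root_.zpow_neg, norm_zpow, ← Real.rpow_intCast,
    Int.cast_neg] using summand_bound_of_mem_verticalStrip (by positivity) p hB hz

lemma wEis_tendstoLocallyUniformlyOn (hw : ∀ v, ‖w v‖ ≤ 1) (hk : 3 ≤ k) :
    TendstoLocallyUniformlyOn (fun (s : Finset (Fin 2 → ℤ)) ↦
      ↑ₕ(fun (z : ℍ) ↦ ∑ x ∈ s, w x * eisSummand k x z)) (↑ₕ(wEis w k))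
          Filter.atTop {z : ℂ | 0 < z.im} := by
  rw [← upperHalfPlaneSet, ← range_coe, ← image_univ]
  apply TendstoLocallyUniformlyOn.comp (s := ⊤) _ _ _ (OpenPartialHomeomorph.continuousOn_symm _)
  · simp only [Set.top_eq_univ, tendstoLocallyUniformlyOn_univ]
    apply wEis_tendstoLocallyUniformly hw hk
  · simp only [Topology.IsOpenEmbedding.toOpenPartialHomeomorph_target, Set.top_eq_univ,
      mapsTo_range_iff, Set.mem_univ, forall_const]

/-- The weighted Eisenstein sum is holomorphic. -/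
theorem wEis_mdifferentiable (hw : ∀ v, ‖w v‖ ≤ 1) (hk : 3 ≤ k) : MDiff (wEis w k) := by
  intro τ
  suffices DifferentiableAt ℂ (↑ₕ(wEis w k)) τ.1 by
    convert!
      MDifferentiableAt.comp τ (DifferentiableAt.mdifferentiableAt this) τ.mdifferentiable_coe
    exact funext fun z ↦ (comp_ofComplex (wEis w k) z).symm
  refine DifferentiableOn.differentiableAt ?_ (isOpen_upperHalfPlaneSet.mem_nhds τ.2)
  refine (wEis_tendstoLocallyUniformlyOn hw hk).differentiableOn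
    (Eventually.of_forall fun s ↦ ?_) isOpen_upperHalfPlaneSet
  have : (↑ₕ(fun (z : ℍ) ↦ ∑ x ∈ s, w x * eisSummand k x z)) =
      fun z : ℂ => ∑ x ∈ s, w x * (↑ₕ(eisSummand k x)) z := by
    funext z
    simp [Function.comp]
  rw [this]
  exact DifferentiableOn.fun_sum fun x _ =>
    (eisSummand_extension_differentiableOn k x).const_mul (w x)

/-- The sum of the norms of the Eisenstein summands is invariant under `SL(2, ℤ)` up to the
automorphy factor; in particular under translations. -/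
lemma tsum_norm_eisSummand_T_zpow (k : ℤ) (n : ℤ) (z : ℍ) :
    ∑' v : Fin 2 → ℤ, ‖eisSummand k v (ModularGroup.T ^ n • z)‖ =
      ∑' v : Fin 2 → ℤ, ‖eisSummand k v z‖ := by
  have h1 : ∀ v : Fin 2 → ℤ, ‖eisSummand k v (ModularGroup.T ^ n • z)‖ =
      ‖eisSummand k (v ᵥ* ((ModularGroup.T ^ n : SL(2, ℤ)) : Matrix (Fin 2) (Fin 2) ℤ)) z‖ := by
    intro v
    rw [eisSummand_SL2_apply]
    have hd : denom (ModularGroup.T ^ n : SL(2, ℤ)) z = 1 := by
      rw [ModularGroup.denom_apply, ModularGroup.coe_T_zpow]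
      simp
    rw [hd, _root_.one_zpow, one_mul]
  rw [tsum_congr h1]
  exact (vecMulEquiv (ModularGroup.T ^ n)).tsum_eq (fun u => ‖eisSummand k u z‖)

/-- The weighted Eisenstein sum is bounded at `i∞`. -/
theorem isBoundedAtImInfty_wEis (hw : ∀ v, ‖w v‖ ≤ 1) (hk : 3 ≤ k) :
    IsBoundedAtImInfty (wEis w k) := by
  rw [UpperHalfPlane.isBoundedAtImInfty_iff]
  refine ⟨∑' (x : Fin 2 → ℤ), r ⟨⟨1, 2⟩, Nat.ofNat_pos⟩ ^ (-k) * ‖x‖ ^ (-k), 2, ?_⟩
  intro z hz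
  obtain ⟨n, hn⟩ := (ModularGroup_T_zpow_mem_verticalStrip z (N := 1) one_pos)
  have hk' : (2 : ℝ) < k := by norm_cast
  calc ‖wEis w k z‖ ≤ ∑' v : Fin 2 → ℤ, ‖w v * eisSummand k v z‖ :=
        norm_tsum_le_tsum_norm (summable_norm_wEis hw hk z)
    _ ≤ ∑' v : Fin 2 → ℤ, ‖eisSummand k v z‖ := by
        refine (summable_norm_wEis hw hk z).tsum_le_tsum (fun v => ?_)
          (summable_norm_eisSummand hk z)
        rw [norm_mul]
        exact mul_le_of_le_one_left (norm_nonneg _) (hw v)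
    _ = ∑' v : Fin 2 → ℤ, ‖eisSummand k v (ModularGroup.T ^ ((1 : ℕ) * n) • z)‖ :=
        (tsum_norm_eisSummand_T_zpow k _ z).symm
    _ ≤ _ := by
        apply (summable_norm_eisSummand hk _).tsum_le_tsum _
        · exact_mod_cast (summable_one_div_norm_rpow hk').mul_left <|
            r ⟨⟨1, 2⟩, Nat.ofNat_pos⟩ ^ (-k)
        · intro x
          simp_rw [eisSummand, norm_zpow]
          exact_mod_cast
            summand_bound_of_mem_verticalStrip (lt_trans two_pos hk').le x two_pos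
            (verticalStrip_anti_right 1 hz (by simpa using hn))

end

end Fermat.Agent.S48.TwistC
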