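import Mathlib
import Fermat.Agent.S48.TwistC.WEis
import Fermat.Agent.S48.TwistC.Lambert

set_option autoImplicit false

/-!
# The weight-3 Eisenstein series with character

For an odd Dirichlet character `χ` mod `N`, the series `∑_{(m,n)} χ(m) (m z + n)^(-3)` equals
`(-2πi)^3 ∑_{e ≥ 1} (∑_{d c = e} χ(d) c^2) q^e`.
-/

namespace Fermat.Agent.S48.TwistC

open ModularForm EisensteinSeries Matrix Filter Complex Set CongruenceSubgroup
open UpperHalfPlane hiding I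
open scoped MatrixGroups Manifold Topology Real

noncomputable section

variable {N : ℕ}

/-- The weight on `ℤ²` given by a Dirichlet character of the first coordinate. -/
def chiW (χ : DirichletCharacter ℂ N) (v : Fin 2 → ℤ) : ℂ := χ ((v 0 : ℤ) : ZMod N)

lemma norm_chiW_le (χ : DirichletCharacter ℂ N) (v : Fin 2 → ℤ) : ‖chiW χ v‖ ≤ 1 :=
  DirichletCharacter.norm_le_one χ _

/-- A Dirichlet character as a function on `ℕ`. -/
def chiN (χ : DirichletCharacter ℂ N) (d : ℕ) : ℂ := χ (d : ZMod N)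

lemma norm_chiN_le (χ : DirichletCharacter ℂ N) (d : ℕ) : ‖chiN χ d‖ ≤ 1 :=
  DirichletCharacter.norm_le_one χ _

lemma chi_zero_of_odd (χ : DirichletCharacter ℂ N) (hχ : χ (-1) = -1) : χ 0 = 0 := by
  have hN : N ≠ 1 := by
    rintro rfl
    have h1 : (-1 : ZMod 1) = 1 := Subsingleton.elim _ _
    rw [h1, map_one] at hχ
    norm_num at hχ
  have : Nontrivial (ZMod N) := ZMod.nontrivial_iff.mpr hN
  exact MulChar.map_zero χ

theorem wEis_chi_eq_tsum (χ : DirichletCharacter ℂ N) (hχ : χ (-1) = -1) (z : ℍ) :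
    wEis (chiW χ) 3 z =
      (-2 * π * I) ^ 3 * ∑' e : ℕ+, dsum (chiN χ) 2 e * cexp (2 * π * I * z) ^ (e : ℕ) := by
  have h0 : χ 0 = 0 := chi_zero_of_odd χ hχ
  have hsum := summable_wEis (norm_chiW_le χ) (le_refl (3 : ℤ)) z
  have hprod : Summable fun x : ℤ × ℤ =>
      χ ((x.1 : ℤ) : ZMod N) * eisSummand 3 ![x.1, x.2] z := by
    refine (finTwoArrowEquiv ℤ).summable_iff.mp (hsum.congr fun v => ?_)
    simp [chiW, show ![v 0, v 1] = v from List.ofFn_inj.mp rfl]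
  have hE : wEis (chiW χ) 3 z =
      ∑' x : ℤ × ℤ, χ ((x.1 : ℤ) : ZMod N) * eisSummand 3 ![x.1, x.2] z := by
    rw [wEis, ← (finTwoArrowEquiv ℤ).symm.tsum_eq]
    refine tsum_congr fun x => ?_
    simp [chiW, finTwoArrowEquiv_symm_apply]
  rw [hE, Summable.tsum_prod hprod]
  have hGeven : (fun m : ℤ => ∑' n : ℤ, χ ((m : ℤ) : ZMod N) * eisSummand 3 ![m, n] z).Even := by
    intro m
    show ∑' n : ℤ, χ (((-m : ℤ) : ℤ) : ZMod N) * eisSummand 3 ![-m, n] z =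
      ∑' n : ℤ, χ ((m : ℤ) : ZMod N) * eisSummand 3 ![m, n] z
    rw [← tsum_comp_neg]
    refine tsum_congr fun n => ?_
    have h1 : (((-m : ℤ) : ℤ) : ZMod N) = -1 * ((m : ℤ) : ZMod N) := by push_cast; ring
    have h2 : eisSummand 3 ![-m, -n] z = -eisSummand 3 ![m, n] z := by
      simp only [eisSummand, Matrix.cons_val_zero, Matrix.cons_val_one, Int.cast_neg]
      rw [show (-(m : ℂ) * (z : ℂ) + -(n : ℂ)) = -((m : ℂ) * z + n) by ring]
      exact Odd.neg_zpow (by decide) _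
    rw [h1, map_mul, hχ, h2]
    ring
  rw [tsum_int_eq_zero_add_two_mul_tsum_pnat hGeven hprod.prod]
  have hG0 : ∑' n : ℤ, χ (((0 : ℤ) : ℤ) : ZMod N) * eisSummand 3 ![0, n] z = 0 := by
    simp [h0]
  rw [hG0, zero_add]
  have hr : ‖cexp (2 * π * I * z)‖ < 1 := norm_exp_two_pi_I_lt_one z
  have H (m : ℕ+) : ∑' n : ℤ, χ ((((m : ℕ) : ℤ) : ℤ) : ZMod N) * eisSummand 3 ![((m : ℕ) : ℤ), n] z =
      ((-2 * π * I) ^ 3 / 2) * ∑' j : ℕ+, chiN χ m *
        (((j : ℕ) : ℂ) ^ 2 * cexp (2 * π * I * z) ^ ((m : ℕ) * (j : ℕ))) := by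
    have h := qExpansion_identity_pnat (k := 2) (by norm_num) ⟨m * z, by simpa using z.2⟩
    rw [tsum_mul_left, tsum_mul_left]
    have h3 : ∑' n : ℤ, eisSummand 3 ![((m : ℕ) : ℤ), n] z =
        ∑' n : ℤ, 1 / (((m : ℂ) * z : ℂ) + n) ^ (2 + 1) := by
      refine tsum_congr fun n => ?_
      simp [eisSummand, _root_.zpow_neg]
    rw [h3]
    rw [h]
    have h4 : ∑' j : ℕ+, ((j : ℕ) : ℂ) ^ 2 * cexp (2 * π * I * ((m : ℂ) * z)) ^ (j : ℕ) =
        ∑' j : ℕ+, ((j : ℕ) : ℂ) ^ 2 * cexp (2 * π * I * z) ^ ((m : ℕ) * (j : ℕ)) := by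
      refine tsum_congr fun j => ?_
      rw [← Complex.exp_nat_mul, ← Complex.exp_nat_mul]
      congr 2
      push_cast
      ring
    rw [h4]
    simp only [chiN, Nat.factorial]
    push_cast
    ring
  rw [tsum_congr H, tsum_mul_left, ← tsum_prod_weighted (norm_chiN_le χ) 2 hr]
  simp only [nsmul_eq_mul, Nat.cast_ofNat]
  ring

/-- The normalised weight-3 Eisenstein function with character `χ`:
`(-2πi)^(-3) ∑_{(m,n)} χ(m) (m z + n)^(-3)`. -/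
def eis3Fun (χ : DirichletCharacter ℂ N) : ℍ → ℂ :=
  ((-2 * π * I) ^ 3 : ℂ)⁻¹ • wEis (chiW χ) 3

lemma two_pi_I_pow_ne_zero : ((-2 * π * I) ^ 3 : ℂ) ≠ 0 := by
  apply pow_ne_zero
  simp [Real.pi_ne_zero, I_ne_zero]

theorem eis3Fun_eq_tsum (χ : DirichletCharacter ℂ N) (hχ : χ (-1) = -1) (z : ℍ) :
    eis3Fun χ z = ∑' e : ℕ+, dsum (chiN χ) 2 e * cexp (2 * π * I * z) ^ (e : ℕ) := by
  rw [eis3Fun, Pi.smul_apply, wEis_chi_eq_tsum χ hχ z, smul_eq_mul, ← mul_assoc,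
    inv_mul_cancel₀ two_pi_I_pow_ne_zero, one_mul]

/-- The weight permuted by `γ⁻¹`, for `γ ∈ Γ₀(N)`. -/
lemma chiW_vecMul_inv (χ : DirichletCharacter ℂ N) {γ : SL(2, ℤ)} (hγ : γ ∈ Gamma0 N)
    (v : Fin 2 → ℤ) :
    chiW χ (v ᵥ* ((γ⁻¹ : SL(2, ℤ)) : Matrix (Fin 2) (Fin 2) ℤ)) =
      χ ((γ 1 1 : ℤ) : ZMod N) * chiW χ v := by
  have h10 : ((γ 1 0 : ℤ) : ZMod N) = 0 := Gamma0_mem.mp hγ
  have h1 : (v ᵥ* ((γ⁻¹ : SL(2, ℤ)) : Matrix (Fin 2) (Fin 2) ℤ)) 0 =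
      v 0 * γ 1 1 - v 1 * γ 1 0 := by
    rw [Matrix.SpecialLinearGroup.SL2_inv_expl]
    simp [Matrix.vecMul, dotProduct, Fin.sum_univ_two]
    ring
  rw [chiW, h1, chiW]
  push_cast
  rw [h10, mul_zero, sub_zero, map_mul, mul_comm]

theorem eis3Fun_slash (χ : DirichletCharacter ℂ N) {γ : SL(2, ℤ)} (hγ : γ ∈ Gamma0 N) :
    eis3Fun χ ∣[(3 : ℤ)] γ = χ ((γ 1 1 : ℤ) : ZMod N) • eis3Fun χ := by
  rw [eis3Fun, SL_smul_slash, wEis_slash, smul_comm]
  congr 1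
  ext z
  simp only [wEis, Pi.smul_apply, smul_eq_mul, chiW_vecMul_inv χ hγ, mul_assoc, tsum_mul_left]

lemma norm_chiW_vecMul_le (χ : DirichletCharacter ℂ N) (γ : SL(2, ℤ)) (v : Fin 2 → ℤ) :
    ‖chiW χ (v ᵥ* ((γ⁻¹ : SL(2, ℤ)) : Matrix (Fin 2) (Fin 2) ℤ))‖ ≤ 1 :=
  norm_chiW_le χ _

lemma one_mem_strictPeriods_Gamma1 (N : ℕ) :
    (1 : ℝ) ∈ (Gamma1 N : Subgroup (GL (Fin 2) ℝ)).strictPeriods := by
  have hT : ModularGroup.T ∈ Gamma1 N :=
    (Gamma1_mem N _).mpr ⟨by simp [ModularGroup.T], by simp [ModularGroup.T],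
      by simp [ModularGroup.T]⟩
  rw [Subgroup.strictPeriods_eq_zmultiples_one_of_T_mem hT]
  exact AddSubgroup.mem_zmultiples 1

/-- The normalised weight-3 Eisenstein series with character `χ`, as a modular form on
`Γ₁(N)`. -/
def eis3 [NeZero N] (χ : DirichletCharacter ℂ N) : ModularForm (Gamma1 N) 3 where
  toFun := eis3Fun χ
  slash_action_eq' := by
    rintro _ ⟨γ, hγ, rfl⟩
    have h0 : γ ∈ Gamma0 N := Gamma1_in_Gamma0 N hγ
    have h1 : ((γ 1 1 : ℤ) : ZMod N) = 1 := ((Gamma1_mem N γ).mp hγ).2.1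
    have := eis3Fun_slash χ h0
    rw [h1, map_one, one_smul] at this
    exact this
  holo' := (wEis_mdifferentiable (norm_chiW_le χ) le_rfl).const_smul _
  bdd_at_cusps' {c} hc := by
    rw [Subgroup.IsArithmetic.isCusp_iff_isCusp_SL2Z] at hc
    rw [OnePoint.isBoundedAt_iff_forall_SL2Z hc]
    intro γ _
    rw [eis3Fun, SL_smul_slash, wEis_slash]
    exact (isBoundedAtImInfty_wEis (norm_chiW_vecMul_le χ γ) le_rfl).const_smul_left _

@[simp] lemma eis3_apply [NeZero N] (χ : DirichletCharacter ℂ N) (z : ℍ) :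
    eis3 χ z = eis3Fun χ z := rfl

lemma coe_eis3 [NeZero N] (χ : DirichletCharacter ℂ N) : ⇑(eis3 χ) = eis3Fun χ := rfl

/-- The `q`-expansion of the Eisenstein series `eis3 χ` for odd `χ`. -/
theorem qExpansion_eis3_coeff [NeZero N] (χ : DirichletCharacter ℂ N) (hχ : χ (-1) = -1)
    (n : ℕ) : (qExpansion 1 (eis3 χ)).coeff n = dsum (chiN χ) 2 n := by
  symm
  refine ModularFormClass.qExpansion_coeff_unique (c := fun n => dsum (chiN χ) 2 n) one_pos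
    (one_mem_strictPeriods_Gamma1 N) (f := eis3 χ) (fun τ => ?_) n
  have hS : Summable fun n : ℕ => dsum (chiN χ) 2 n * cexp (2 * π * I * τ) ^ n :=
    summable_dsum_mul_pow (norm_chiN_le χ) 2 (norm_exp_two_pi_I_lt_one τ)
  have hval : eis3 χ τ = ∑' n : ℕ, dsum (chiN χ) 2 n * cexp (2 * π * I * τ) ^ n := by
    rw [eis3_apply, eis3Fun_eq_tsum χ hχ τ, ← tsum_zero_pnat_eq_tsum_nat hS]
    simp
  rw [hval]
  convert hS.hasSum using 2
  simp [Function.Periodic.qParam]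

end

end Fermat.Agent.S48.TwistC
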