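import Mathlib
import Fermat.Agent.S23.Wiring
import Fermat.Agent.S23.Fraction
import Fermat.Agent.S23.NormPoly
import Fermat.Agent.S23.Integrality
import Fermat.Agent.S23.LevelOneSpan

set_option autoImplicit false

namespace Fermat.Agent.S48.TwistC

open Fermat.Agent.S23

/-- The landed `S23` library is weight-generic: `S_k(Γ₀(N))` is spanned by forms with integral
`q`-expansion, for every weight `k`. -/
theorem hasIntegralStructure_all (N : ℕ) [NeZero N] (k : ℤ) :
    CuspForm.HasIntegralStructure N k :=
  Wiring.hasIntegralStructure_of_parts N k
    (fun f => Fraction.exists_fraction N k f)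
    (fun f => exists_norm_polynomial N f)
    (fun K g => LevelOneSpan.cusp_mem_span K g)
    (fun P Q hQ n c h => Integrality.integrality_criterion N P Q hQ n c h)

end Fermat.Agent.S48.TwistC
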