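import Mathlib
import Fermat.Prelude.Def_FLTPrelim_Modularity
import Fermat.Prelude.Def_CuspForm_IntegralStructure
import Fermat.Agent.S48.MonicConjCor
import Fermat.Agent.S48.TwistC.IntStruct
import Fermat.Agent.S48.TwistC.Eis3

set_option autoImplicit false

/-!
# Brick C of Deligne–Serre by the twist route: conjugates of weight-one forms with nebentypus

Let `f` be a weight-one cusp form on `Γ₁(N)` with nebentypus `ε` on `Γ₀(N)`.  Multiplying by the
weight-3 Eisenstein series `eis3 ε⁻¹` gives a cusp form of weight 4 on `Γ₀(N)` with trivial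
character; the landed integral structure of `S₄(Γ₀(N))` and the monic-relation criterion
(`MonicConj.exists_conj`) show that every coefficientwise conjugate of the `q`-expansion of `f`
is again the `q`-expansion of a weight-one cusp form on `Γ₁(N)`.
-/

namespace Fermat.Agent.S48.TwistC

open ModularForm PowerSeries CongruenceSubgroup Matrix.SpecialLinearGroup
open UpperHalfPlane hiding I
open Fermat.Agent.S23 Fermat.Agent.S23.Wiring
open scoped MatrixGroups Manifold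

noncomputable section

variable {N : ℕ} [NeZero N]

/-- The lower-right entry of an element of `Γ₀(N)` is a unit mod `N`. -/
lemma isUnit_lr {γ : SL(2, ℤ)} (hγ : γ ∈ Gamma0 N) : IsUnit (((γ 1 1 : ℤ) : ZMod N)) := by
  have h10 : ((γ 1 0 : ℤ) : ZMod N) = 0 := Gamma0_mem.mp hγ
  have hdet : γ 0 0 * γ 1 1 - γ 0 1 * γ 1 0 = 1 := by
    have := γ.det_coe
    rw [Matrix.det_fin_two] at this
    exact this
  have h : ((γ 0 0 : ℤ) : ZMod N) * ((γ 1 1 : ℤ) : ZMod N) = 1 := by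
    have := congrArg (Int.cast : ℤ → ZMod N) hdet
    push_cast at this
    rw [h10, mul_zero, sub_zero] at this
    exact this
  exact IsUnit.of_mul_eq_one _ (by rw [mul_comm]; exact h)

/-- The product `f * eis3 ε⁻¹` as a cusp form of weight `1 + 3` on `Γ₀(N)`. -/
def prodForm (ε : DirichletCharacter ℂ N) (f : CuspForm (Gamma1 N) 1)
    (hneb : ∀ γ : SL(2, ℤ), γ ∈ Gamma0 N →
      (⇑f) ∣[(1 : ℤ)] (mapGL ℝ γ) = ε ((γ 1 1 : ℤ) : ZMod N) • ⇑f) :
    CuspForm (G0 N) (1 + 3) where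
  toFun := ⇑f * eis3Fun ε⁻¹
  slash_action_eq' := by
    rintro _ ⟨γ, hγ, rfl⟩
    have h1 : (⇑f) ∣[(1 : ℤ)] γ = ε ((γ 1 1 : ℤ) : ZMod N) • ⇑f := hneb γ hγ
    have h2 := eis3Fun_slash ε⁻¹ hγ
    have h3 : (⇑f * eis3Fun ε⁻¹) ∣[(1 : ℤ) + 3] γ =
        (⇑f) ∣[(1 : ℤ)] γ * (eis3Fun ε⁻¹) ∣[(3 : ℤ)] γ := mul_slash_SL2 1 3 γ _ _
    show (⇑f * eis3Fun ε⁻¹) ∣[(1 : ℤ) + 3] γ = ⇑f * eis3Fun ε⁻¹
    rw [h3, h1, h2]
    have hu := isUnit_lr hγ
    have hne : ε ((γ 1 1 : ℤ) : ZMod N) ≠ 0 := (hu.map ε).ne_zero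
    ext τ
    simp only [Pi.mul_apply, Pi.smul_apply, smul_eq_mul, MulChar.inv_apply_eq_inv']
    field_simp
  holo' := f.holo'.mul (eis3 ε⁻¹).holo'
  zero_at_cusps' {c} hc := by
    have hc1 : IsCusp c (Gamma1 N : Subgroup (GL (Fin 2) ℝ)) := by
      rw [Subgroup.IsArithmetic.isCusp_iff_isCusp_SL2Z] at hc ⊢
      exact hc
    exact (f.mulModularForm (eis3 ε⁻¹)).zero_at_cusps' hc1

lemma coe_prodForm (ε : DirichletCharacter ℂ N) (f : CuspForm (Gamma1 N) 1)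
    (hneb : ∀ γ : SL(2, ℤ), γ ∈ Gamma0 N →
      (⇑f) ∣[(1 : ℤ)] (mapGL ℝ γ) = ε ((γ 1 1 : ℤ) : ZMod N) • ⇑f) :
    ⇑(prodForm ε f hneb) = ⇑f * ⇑(eis3 ε⁻¹) := rfl

/-- Integral span of `S_k(Γ₀(N))` in the `IsIntPS` vocabulary. -/
lemma span_isIntPS_eq_top (k : ℤ) :
    Submodule.span ℂ {h : CuspForm (G0 N) k | Defs.IsIntPS (qExpansion 1 h)} = ⊤ := by
  have h := hasIntegralStructure_all N k
  unfold CuspForm.HasIntegralStructure CuspForm.intLattice at h
  rw [Submodule.span_span_of_tower] at h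
  exact h

/-- A cusp form on `Γ₀(N)` seen as a modular form on `Γ₁(N)`, of weight `w + k`. -/
def restrictMF {k k' : ℤ} (hk : k = k') (g : CuspForm (G0 N) k) : ModularForm (Gamma1 N) k' where
  toFun := ⇑g
  slash_action_eq' := by
    subst hk
    rintro _ ⟨γ, hγ, rfl⟩
    exact g.slash_action_eq' _ ⟨γ, Gamma1_in_Gamma0 N hγ, rfl⟩
  holo' := g.holo'
  bdd_at_cusps' {c} hc := by
    subst hk
    have hc0 : IsCusp c (G0 N) := by
      rw [Subgroup.IsArithmetic.isCusp_iff_isCusp_SL2Z] at hc ⊢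
      exact hc
    exact ModularFormClass.bdd_at_cusps g hc0

lemma coe_restrictMF {k k' : ℤ} (hk : k = k') (g : CuspForm (G0 N) k) :
    ⇑(restrictMF hk g) = ⇑g := rfl

omit [NeZero N] in
/-- The conjugate character is odd. -/
lemma ringHomComp_neg_one (χ : DirichletCharacter ℂ N) (hχ : χ (-1) = -1) (σ : ℂ →+* ℂ) :
    (χ.ringHomComp σ) (-1) = -1 := by
  rw [MulChar.ringHomComp_apply, hχ, map_neg, map_one]

/-- Conjugating the character conjugates the `q`-expansion of `eis3`. -/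
lemma qExpansion_eis3_conj (χ : DirichletCharacter ℂ N) (hχ : χ (-1) = -1) (σ : ℂ →+* ℂ) :
    qExpansion 1 (eis3 (χ.ringHomComp σ)) = PowerSeries.map σ (qExpansion 1 (eis3 χ)) := by
  ext n
  rw [PowerSeries.coeff_map, qExpansion_eis3_coeff χ hχ,
    qExpansion_eis3_coeff _ (ringHomComp_neg_one χ hχ σ), dsum, dsum, map_sum]
  refine Finset.sum_congr rfl fun x _ => ?_
  rw [map_mul, map_pow, map_natCast, chiN, chiN, MulChar.ringHomComp_apply]

lemma eis3_ne_zero (χ : DirichletCharacter ℂ N) (hχ : χ (-1) = -1) : eis3 χ ≠ 0 := by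
  intro h
  have h1 := qExpansion_eis3_coeff χ hχ 1
  rw [h, dsum_one, chiN, Nat.cast_one, map_one] at h1
  have h0 : qExpansion 1 ((0 : ModularForm (Gamma1 N) 3) : ℍ → ℂ) = 0 := by
    simpa using qExpansion_zero 1
  rw [h0] at h1
  simp at h1

/-- **Conjugates, odd character.** -/
theorem exists_conj_of_odd (ε : DirichletCharacter ℂ N) (hε : ε (-1) = -1)
    (f : CuspForm (Gamma1 N) 1)
    (hneb : ∀ γ : SL(2, ℤ), γ ∈ Gamma0 N →
      (⇑f) ∣[(1 : ℤ)] (mapGL ℝ γ) = ε ((γ 1 1 : ℤ) : ZMod N) • ⇑f)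
    (σ : ℂ →+* ℂ) :
    ∃ h : CuspForm (Gamma1 N) 1, qExpansion 1 h = PowerSeries.map σ (qExpansion 1 f) := by
  have hχ : (ε⁻¹ : DirichletCharacter ℂ N) (-1) = -1 := by
    rw [MulChar.inv_apply_eq_inv', hε]
    norm_num
  have hΓ1 := MonicConj.one_mem_strictPeriods_Gamma1 N
  obtain ⟨g', hg'⟩ := MonicConj.exists_conj_of_mem_span_int (G0 N) (hG0 N) σ
    (prodForm ε f hneb) (by rw [span_isIntPS_eq_top]; exact Submodule.mem_top)
  have hfn : IsNice (f : ℍ → ℂ) := isNice_of_modularFormClass hΓ1 f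
  have hQn : IsNice (eis3 ε⁻¹ : ℍ → ℂ) := isNice_of_modularFormClass hΓ1 (eis3 ε⁻¹)
  refine MonicConj.exists_conj _ hΓ1 σ (k := 1) (w := 3) f (eis3 ε⁻¹)
    (eis3 ((ε⁻¹ : DirichletCharacter ℂ N).ringHomComp σ))
    (eis3_ne_zero _ (ringHomComp_neg_one _ hχ σ)) (qExpansion_eis3_conj _ hχ σ)
    (restrictMF (by norm_num : (1 : ℤ) + 3 = 3 + 1) g') ?_
  rw [coe_restrictMF, hg', coe_prodForm, hfn.qExp_mul hQn]

/-- Slashing by `-1` in weight one is negation. -/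
lemma slash_neg_one_weight_one (g : ℍ → ℂ) : g ∣[(1 : ℤ)] (-1 : SL(2, ℤ)) = -g := by
  ext τ
  rw [SL_slash_apply]
  have h1 : (-1 : SL(2, ℤ)) • τ = τ := by
    rw [ModularGroup.SL_neg_smul, one_smul]
  have h2 : denom (-1 : SL(2, ℤ)) τ = -1 := by
    rw [ModularGroup.denom_apply]
    simp
  rw [h1, h2]
  simp

omit [NeZero N] in
/-- A nonzero weight-one function with nebentypus `ε` forces `ε` to be odd. -/
lemma odd_of_neb (ε : DirichletCharacter ℂ N) (g : ℍ → ℂ) (hg : g ≠ 0)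
    (hneb : ∀ γ : SL(2, ℤ), γ ∈ Gamma0 N →
      g ∣[(1 : ℤ)] (mapGL ℝ γ) = ε ((γ 1 1 : ℤ) : ZMod N) • g) :
    ε (-1) = -1 := by
  have hmem : (-1 : SL(2, ℤ)) ∈ Gamma0 N := by
    rw [Gamma0_mem]
    simp
  have h1 : g ∣[(1 : ℤ)] (-1 : SL(2, ℤ)) = ε ((((-1 : SL(2, ℤ)) 1 1 : ℤ)) : ZMod N) • g :=
    hneb _ hmem
  rw [slash_neg_one_weight_one] at h1
  have h2 : ((((-1 : SL(2, ℤ)) 1 1 : ℤ)) : ZMod N) = -1 := by simp
  rw [h2] at h1
  by_contra hne
  apply hg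
  funext τ
  have h3 := congrFun h1 τ
  simp only [Pi.neg_apply, Pi.smul_apply, smul_eq_mul, Pi.zero_apply] at h3 ⊢
  have h4 : (ε (-1) + 1) * g τ = 0 := by rw [add_mul, ← h3]; ring
  rcases mul_eq_zero.mp h4 with h5 | h5
  · exact absurd (eq_neg_of_add_eq_zero_left h5) hne
  · exact h5

/-- **Brick C, conjugates (twist route).**  Let `f` be a weight-one cusp form on `Γ₁(N)` with
nebentypus `ε` on `Γ₀(N)` (the exit of brick A).  For every ring homomorphism `σ : ℂ →+* ℂ`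
there is a weight-one cusp form on `Γ₁(N)` whose `q`-coefficients are the `σ`-conjugates of those
of `f`. -/
theorem exists_conj_of_neb (ε : DirichletCharacter ℂ N) (f : CuspForm (Gamma1 N) 1)
    (hneb : ∀ γ : SL(2, ℤ), γ ∈ Gamma0 N →
      (⇑f) ∣[(1 : ℤ)] (mapGL ℝ γ) = ε ((γ 1 1 : ℤ) : ZMod N) • ⇑f)
    (σ : ℂ →+* ℂ) :
    ∃ h : CuspForm (Gamma1 N) 1,
      ∀ n : ℕ, ModularFormClass.qCoeff h n = σ (ModularFormClass.qCoeff f n) := by
  have key : ∃ h : CuspForm (Gamma1 N) 1,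
      qExpansion 1 h = PowerSeries.map σ (qExpansion 1 f) := by
    by_cases hf : (⇑f : ℍ → ℂ) = 0
    · refine ⟨0, ?_⟩
      have h0 : qExpansion 1 ((0 : CuspForm (Gamma1 N) 1) : ℍ → ℂ) = 0 := by
        simpa using qExpansion_zero 1
      rw [h0, hf, qExpansion_zero, map_zero]
    · exact exists_conj_of_odd ε (odd_of_neb ε _ hf hneb) f hneb σ
  obtain ⟨h, hh⟩ := key
  refine ⟨h, fun n => ?_⟩
  have := congrArg (PowerSeries.coeff n) hh
  rw [PowerSeries.coeff_map] at this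
  exact this

end

end Fermat.Agent.S48.TwistC
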